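import Fermat.Agent.MUL.Orig.E.Velu.Trans

/-!
# Vélu (V1), infrastructure I1a: points over an extension field and homomorphisms out of the
function field

A point `(x', y')` of `W` over a field extension `L/k` with `x'` transcendental over `k`
induces a `k`-algebra homomorphism `W.FunctionField →ₐ[k] L`, `x ↦ x'`, `y ↦ y'`.
-/

set_option autoImplicit false

open WeierstrassCurve Polynomial
open scoped Polynomial.Bivariate WeierstrassCurve.Affine

namespace Fermat.Agent.Velu

noncomputable section

variable {k : Type*} [Field k] (W : Affine k)

section LiftA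

variable {L : Type*} [CommRing L] [Algebra k L]

/-- Evaluation of a bivariate polynomial over `k` at a point of a `k`-algebra, two ways. -/
theorem eval₂_aeval_eq (p : k[X][Y]) (x' y' : L) :
    p.eval₂ ((aeval x' : k[X] →ₐ[k] L) : k[X] →+* L) y'
      = (p.map (mapRingHom (algebraMap k L))).evalEval x' y' := by
  induction p using Polynomial.induction_on' with
  | add p q hp hq => simp only [eval₂_add, Polynomial.map_add, evalEval_add, hp, hq]
  | monomial n a =>
    rw [← C_mul_X_pow_eq_monomial]
    simp only [eval₂_mul, eval₂_C, eval₂_pow, eval₂_X, Polynomial.map_mul, Polynomial.map_pow,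
      Polynomial.map_C, Polynomial.map_X, evalEval_mul, evalEval_pow, evalEval_X, evalEval_C,
      coe_mapRingHom]
    congr 1
    rw [RingHom.coe_coe, aeval_def, eval₂_eq_eval_map]

/-- The `k`-algebra homomorphism `k[W] → L` given by a point of `W` over `L`. -/
def liftA (x' y' : L) (h : (W⁄L).Equation x' y') : W.CoordinateRing →ₐ[k] L :=
  AdjoinRoot.liftAlgHom W.polynomial (aeval x' : k[X] →ₐ[k] L) y' (by
    have h' : ((W.polynomial).map (mapRingHom (algebraMap k L))).evalEval x' y' = 0 := by
      have := h
      rw [Affine.Equation, Affine.baseChange, WeierstrassCurve.baseChange] at this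
      rwa [Affine.map_polynomial] at this
    rw [← h', ← eval₂_aeval_eq])

variable {W} {x' y' : L} (h : (W⁄L).Equation x' y')

theorem liftA_mk (p : k[X][Y]) :
    liftA W x' y' h (Affine.CoordinateRing.mk W p)
      = (p.map (mapRingHom (algebraMap k L))).evalEval x' y' := by
  rw [← eval₂_aeval_eq]
  rfl

@[simp] theorem liftA_mk_X : liftA W x' y' h (Affine.CoordinateRing.mk W (C X)) = x' := by
  rw [liftA_mk, Polynomial.map_C, evalEval_C, coe_mapRingHom, Polynomial.map_X, eval_X]

@[simp] theorem liftA_mk_Y : liftA W x' y' h (Affine.CoordinateRing.mk W Y) = y' := by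
  rw [liftA_mk, Polynomial.map_X, evalEval_X]

theorem liftA_algebraMap (p : k[X]) :
    liftA W x' y' h (algebraMap k[X] W.CoordinateRing p) = aeval x' p := by
  have : algebraMap k[X] W.CoordinateRing p = Affine.CoordinateRing.mk W (C p) := rfl
  rw [this, liftA_mk, Polynomial.map_C, evalEval_C, coe_mapRingHom, aeval_def,
    eval₂_eq_eval_map]

end LiftA

section Lift

variable {L : Type*} [Field L] [Algebra k L]

variable {W} {x' y' : L} (h : (W⁄L).Equation x' y')

theorem liftA_injective (hx : Transcendental k x') : Function.Injective (liftA W x' y' h) := by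
  rw [injective_iff_map_eq_zero]
  intro a ha
  have hI : (RingHom.ker (liftA W x' y' h : W.CoordinateRing →+* L)) = ⊥ := by
    apply Ideal.eq_bot_of_comap_eq_bot (R := k[X])
    rw [eq_bot_iff]
    intro p hp
    rw [Ideal.mem_comap, RingHom.mem_ker] at hp
    have hp' : aeval x' p = 0 := by
      rw [← liftA_algebraMap h]; exact hp
    rw [Ideal.mem_bot]
    exact (transcendental_iff_injective.1 hx) (by rw [hp', map_zero])
  have : a ∈ RingHom.ker (liftA W x' y' h : W.CoordinateRing →+* L) := ha
  rwa [hI, Ideal.mem_bot] at this

/-- The `k`-algebra homomorphism `k(W) → L` given by a point of `W` over `L` with transcendental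
`x`-coordinate. -/
def liftF (hx : Transcendental k x') : W.FunctionField →ₐ[k] L :=
  IsFractionRing.liftAlgHom (liftA_injective h hx)

theorem liftF_algebraMap (hx : Transcendental k x') (a : W.CoordinateRing) :
    liftF h hx (algebraMap W.CoordinateRing W.FunctionField a) = liftA W x' y' h a := by
  rw [liftF, IsFractionRing.liftAlgHom_apply, IsFractionRing.lift_algebraMap]
  rfl

@[simp] theorem liftF_xg (hx : Transcendental k x') : liftF h hx (xg W) = x' := by
  rw [xg, liftF_algebraMap, liftA_mk_X]

@[simp] theorem liftF_yg (hx : Transcendental k x') : liftF h hx (yg W) = y' := by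
  rw [yg, liftF_algebraMap, liftA_mk_Y]

end Lift

/-- Two `k`-algebra homomorphisms out of the function field agreeing on `x` and `y` are equal. -/
theorem algHom_ext_gen {L : Type*} [Field L] [Algebra k L]
    {f g : W.FunctionField →ₐ[k] L} (hx : f (xg W) = g (xg W)) (hy : f (yg W) = g (yg W)) :
    f = g := by
  have hA : ∀ a : W.CoordinateRing, f (algebraMap _ _ a) = g (algebraMap _ _ a) := by
    intro a
    have : (f : W.FunctionField →+* L).comp (algebraMap W.CoordinateRing W.FunctionField)
        = (g : W.FunctionField →+* L).comp (algebraMap W.CoordinateRing W.FunctionField) := by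
      apply AdjoinRoot.ringHom_ext
      · apply Polynomial.ringHom_ext
        · intro c
          have e : (AdjoinRoot.of W.polynomial) (C c)
              = algebraMap k W.CoordinateRing c := rfl
          simp only [RingHom.comp_apply, e, ← IsScalarTower.algebraMap_apply, RingHom.coe_coe,
            AlgHom.commutes]
        · simpa [xg] using hx
      · simpa [yg] using hy
    exact RingHom.congr_fun this a
  apply AlgHom.coe_ringHom_injective
  apply IsFractionRing.ringHom_ext (A := W.CoordinateRing)
  intro a
  exact hA a

end

end Fermat.Agent.Velu
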